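import Mathlib
import Fermat.Prelude.Def_EllipticCurve_FrobeniusTrace

set_option autoImplicit false

open scoped Pointwise

namespace Fermat.Agent.S54

noncomputable section

theorem isAlgClosure_Qbar : IsAlgClosure ℚ (AlgebraicClosure ℚ) :=
  (inferInstance : @IsAlgClosure ℚ (AlgebraicClosure ℚ) _ _ (AlgebraicClosure.instAlgebra ℚ) _)

attribute [local instance] isAlgClosure_Qbar

/-- the ring of all algebraic integers -/
abbrev Zbar : Subalgebra ℤ (AlgebraicClosure ℚ) := integralClosure ℤ (AlgebraicClosure ℚ)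

abbrev GQ : Type := AlgebraicClosure ℚ ≃ₐ[ℚ] AlgebraicClosure ℚ

/-- the Galois action on algebraic integers -/
@[reducible] def zbarAction : MulSemiringAction GQ Zbar where
  smul g b := ⟨g b.1, b.2.map g⟩
  one_smul _ := rfl
  mul_smul _ _ _ := rfl
  smul_zero g := Subtype.ext (map_zero g)
  smul_add g a b := Subtype.ext (map_add g a.1 b.1)
  smul_one g := Subtype.ext (map_one g)
  smul_mul g a b := Subtype.ext (map_mul g a.1 b.1)

attribute [local instance] zbarAction

theorem zbar_coe_smul (g : GQ) (b : Zbar) : ((g • b : Zbar) : AlgebraicClosure ℚ) = g b.1 := rfl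

theorem zbar_isInvariant : Algebra.IsInvariant ℤ Zbar GQ := by
  refine ⟨fun b hb => ?_⟩
  have h1 : (b : AlgebraicClosure ℚ) ∈ Set.range (algebraMap ℚ (AlgebraicClosure ℚ)) := by
    rw [InfiniteGalois.mem_range_algebraMap_iff_fixed]
    intro g
    exact congrArg Subtype.val (hb g)
  obtain ⟨r, hr⟩ := h1
  have h2 : IsIntegral ℤ r := by
    have := b.2
    rw [← hr] at this
    exact (isIntegral_algebraMap_iff (algebraMap ℚ (AlgebraicClosure ℚ)).injective).mp this
  obtain ⟨a, ha⟩ := IsIntegrallyClosed.algebraMap_eq_of_integral h2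
  refine ⟨a, Subtype.ext ?_⟩
  rw [← hr, ← ha]
  simp

/-- discrete topology on `Zbar` -/
@[reducible] def zbarTop : TopologicalSpace Zbar := ⊥

attribute [local instance] zbarTop

theorem zbar_discrete : DiscreteTopology Zbar := ⟨rfl⟩

attribute [local instance] zbar_discrete

theorem zbar_continuousSMul : ContinuousSMul GQ Zbar := by
  rw [continuousSMul_iff_stabilizer_isOpen]
  intro b
  have h := stabilizer_isOpen_of_isIntegral (K := ℚ) (L := AlgebraicClosure ℚ) b.1
  convert h using 1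
  ext g
  simp only [SetLike.mem_coe, MulAction.mem_stabilizer_iff]
  exact Subtype.ext_iff

attribute [local instance] zbar_continuousSMul zbar_isInvariant

theorem exists_frob_zbar (ℓ : ℕ) (hℓ : ℓ.Prime) (Q : Ideal Zbar) [Q.IsPrime]
    (hQ : (ℓ : Zbar) ∈ Q) :
    ∃ σ : GQ, σ • Q = Q ∧ ∀ b : Zbar, σ • b - b ^ ℓ ∈ Q := by
  have : Fact ℓ.Prime := ⟨hℓ⟩
  let P : Ideal ℤ := Ideal.span {(ℓ : ℤ)}
  have hPmax : P.IsMaximal := Int.ideal_span_isMaximal_of_prime ℓ
  have hover : Q.LiesOver P := by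
    refine ⟨hPmax.eq_of_le ?_ ?_⟩
    · exact (Ideal.IsPrime.under ℤ Q).ne_top
    · rw [Ideal.span_le]
      rintro _ rfl
      simpa using hQ
  have hQmax : Q.IsMaximal := Ideal.IsMaximal.of_liesOver_isMaximal Q P
  have hint : Algebra.IsIntegral (ℤ ⧸ P) (Zbar ⧸ Q) :=
    Ideal.Quotient.algebra_isIntegral_of_liesOver Q P
  let _ := Ideal.Quotient.field P
  let _ := Ideal.Quotient.field Q
  have halg : Algebra.IsAlgebraic (ℤ ⧸ P) (Zbar ⧸ Q) := hint.isAlgebraic
  have hchar : CharP (Zbar ⧸ Q) ℓ := by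
    rw [CharP.charP_iff_prime_eq_zero hℓ]
    have : ((ℓ : Zbar ⧸ Q)) = Ideal.Quotient.mk Q (ℓ : Zbar) := by simp
    rw [this, Ideal.Quotient.eq_zero_iff_mem]
    exact hQ
  let f : (Zbar ⧸ Q) →ₐ[ℤ ⧸ P] (Zbar ⧸ Q) :=
    { frobenius (Zbar ⧸ Q) ℓ with
      commutes' := by
        intro r
        obtain ⟨n, rfl⟩ := Ideal.Quotient.mk_surjective r
        have h1 : algebraMap (ℤ ⧸ P) (Zbar ⧸ Q) (Ideal.Quotient.mk P n) = (n : Zbar ⧸ Q) := by
          have : Ideal.Quotient.mk P n = ((n : ℤ) : ℤ ⧸ P) := by simp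
          rw [this, map_intCast]
        simp only [RingHom.toMonoidHom_eq_coe, OneHom.toFun_eq_coe, MonoidHom.toOneHom_coe,
          MonoidHom.coe_coe]
        rw [h1, map_intCast] }
  have hf : Function.Bijective f := Algebra.IsAlgebraic.algHom_bijective f
  let e : (Zbar ⧸ Q) ≃ₐ[ℤ ⧸ P] (Zbar ⧸ Q) := AlgEquiv.ofBijective f hf
  obtain ⟨⟨σ, hσ⟩, hσe⟩ := Ideal.Quotient.stabilizerHom_surjective_of_profinite (G := GQ) P Q e
  refine ⟨σ, hσ, fun b => ?_⟩
  have h2 := congrArg (fun t => t (Ideal.Quotient.mk Q b)) hσe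
  simp only [Ideal.Quotient.stabilizerHom_apply] at h2
  rw [← Ideal.Quotient.eq]
  rw [map_pow]
  exact h2

end

end Fermat.Agent.S54
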