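import Mathlib
import Fermat.Agent.S54.FrobB

set_option autoImplicit false

open scoped Pointwise

namespace Fermat.Agent.S54

noncomputable section

attribute [local instance] isAlgClosure_Qbar

local notation "Qbar" => AlgebraicClosure ℚ

theorem mem_of_isIntegral (A : ValuationSubring Qbar) {b : Qbar} (hb : IsIntegral ℤ b) :
    b ∈ A := by
  have h1 : IsIntegral A b := hb.tower_top
  obtain ⟨y, hy⟩ := IsIntegrallyClosed.isIntegral_iff.mp h1
  rw [← hy]
  exact y.2

theorem nonunits_mul_mem (A : ValuationSubring Qbar) {a x : Qbar} (ha : a ∈ A.nonunits)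
    (hx : x ∈ A) : a * x ∈ A.nonunits := by
  rw [ValuationSubring.mem_nonunits_iff_exists_mem_maximalIdeal] at ha ⊢
  obtain ⟨ha', ha⟩ := ha
  exact ⟨A.mul_mem _ _ ha' hx, Ideal.mul_mem_right (⟨x, hx⟩ : A) _ ha⟩

theorem one_not_mem_nonunits (A : ValuationSubring Qbar) : (1 : Qbar) ∉ A.nonunits := by
  rw [ValuationSubring.mem_nonunits_iff, map_one]
  exact lt_irrefl _

theorem fraction_aux (A : ValuationSubring Qbar) (x : Qbar) (hx : x ∈ A) :
    ∀ (n : ℕ) (f : Polynomial Zbar), f.natDegree ≤ n → Polynomial.aeval x f = 0 →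
      (∃ i, ((f.coeff i : Zbar) : Qbar) ∉ A.nonunits) →
      ∃ b s : Zbar, (s : Qbar) ∉ A.nonunits ∧ x * s = b := by
  intro n
  induction n with
  | zero =>
    intro f hf h0 ⟨i, hi⟩
    exfalso
    have hfC : f = Polynomial.C (f.coeff 0) := Polynomial.eq_C_of_natDegree_le_zero hf
    rw [hfC, Polynomial.aeval_C] at h0
    have h1 : f.coeff 0 = 0 := Subtype.ext h0
    have hf0 : f = 0 := by rw [hfC, h1, map_zero]
    apply hi
    rw [hf0]
    simp only [Polynomial.coeff_zero, ZeroMemClass.coe_zero]
    exact A.nonunits.zero_mem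
  | succ n ih =>
    intro f hf h0 ⟨i, hi⟩
    by_cases hdeg : f.natDegree ≤ n
    · exact ih f hdeg h0 ⟨i, hi⟩
    have hdeg' : f.natDegree = n + 1 := by omega
    have hint : IsIntegral ℤ ((f.leadingCoeff : Qbar) * x) := by
      have h1 : IsIntegral Zbar (f.leadingCoeff • x) :=
        isIntegral_leadingCoeff_smul f x h0
      exact isIntegral_trans _ h1
    let c : Zbar := ⟨f.leadingCoeff * x, hint⟩
    by_cases ha : (f.leadingCoeff : Qbar) ∈ A.nonunits
    · have hc : (c : Qbar) ∈ A.nonunits := nonunits_mul_mem A ha hx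
      refine ih (f.eraseLead + Polynomial.C c * Polynomial.X ^ n) ?_ ?_ ?_
      · refine (Polynomial.natDegree_add_le _ _).trans (max_le ?_ ?_)
        · have := Polynomial.eraseLead_natDegree_le f
          omega
        · exact Polynomial.natDegree_C_mul_X_pow_le _ _
      · have h1 : f.eraseLead + Polynomial.C f.leadingCoeff * Polynomial.X ^ f.natDegree = f :=
          Polynomial.eraseLead_add_C_mul_X_pow f
        have h2 := h0
        rw [← h1, hdeg'] at h2
        simp only [map_add, map_mul, Polynomial.aeval_C, map_pow, Polynomial.aeval_X] at h2 ⊢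
        rw [← h2]
        congr 1
        show (f.leadingCoeff : Qbar) * x * x ^ n = (f.leadingCoeff : Qbar) * x ^ (n + 1)
        ring
      · have hi' : i ≠ f.natDegree := by
          rintro rfl
          exact hi ha
        refine ⟨i, ?_⟩
        rw [Polynomial.coeff_add, Polynomial.eraseLead_coeff_of_ne _ hi',
          Polynomial.coeff_C_mul_X_pow]
        split_ifs with hin
        · intro h
          apply hi
          have := A.nonunits.sub_mem h hc
          simpa using this
        · simpa using hi
    · exact ⟨c, f.leadingCoeff, ha, mul_comm _ _⟩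

theorem exists_fraction (A : ValuationSubring Qbar) (x : Qbar) (hx : x ∈ A) :
    ∃ b s : Zbar, (s : Qbar) ∉ A.nonunits ∧ x * s = b := by
  have halg : IsAlgebraic ℤ x :=
    (IsFractionRing.isAlgebraic_iff ℤ ℚ Qbar).mpr (Algebra.IsAlgebraic.isAlgebraic x)
  obtain ⟨f, hf0, hfx⟩ := halg
  have hgx : Polynomial.aeval x f.primPart = 0 := Polynomial.aeval_primPart_eq_zero hf0 hfx
  have hprim : f.primPart.IsPrimitive := f.isPrimitive_primPart
  -- the ideal of integers that are non-units of `A`
  let I : Ideal ℤ := (IsLocalRing.maximalIdeal A).comap (algebraMap ℤ A)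
  have hI : I ≠ ⊤ := Ideal.comap_ne_top _ (Ideal.IsPrime.ne_top inferInstance)
  obtain ⟨d, hd⟩ := (IsPrincipalIdealRing.principal I).principal
  have hex : ∃ i, f.primPart.coeff i ∉ I := by
    by_contra hcon
    push Not at hcon
    have h1 : Polynomial.C d ∣ f.primPart := by
      rw [Polynomial.C_dvd_iff_dvd_coeff]
      intro i
      have := hcon i
      rw [hd] at this
      exact Ideal.mem_span_singleton.mp this
    have h2 : IsUnit d := hprim d h1
    apply hI
    rw [hd]
    exact Ideal.span_singleton_eq_top.mpr h2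
  obtain ⟨i, hi⟩ := hex
  refine fraction_aux A x hx _ (f.primPart.map (algebraMap ℤ Zbar)) le_rfl ?_ ⟨i, ?_⟩
  · rw [Polynomial.aeval_map_algebraMap]
    exact hgx
  · intro h
    apply hi
    rw [Polynomial.coeff_map] at h
    show algebraMap ℤ A (f.primPart.coeff i) ∈ IsLocalRing.maximalIdeal A
    rw [← ValuationSubring.coe_mem_nonunits_iff]
    simpa using h

end

end Fermat.Agent.S54
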