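import Mathlib
import Fermat.Agent.S54.FrobA

set_option autoImplicit false

open scoped Pointwise

namespace Fermat.Agent.S54

noncomputable section

attribute [local instance] isAlgClosure_Qbar zbarAction

local notation "Qbar" => AlgebraicClosure ℚ

/-- the inclusion of the algebraic integers in a valuation subring -/
def zbarIncl (A : ValuationSubring Qbar) : Zbar →+* A :=
  (Zbar.val.toRingHom).codRestrict A.toSubring (fun b => mem_of_isIntegral A b.2)

theorem coe_zbarIncl (A : ValuationSubring Qbar) (b : Zbar) : ((zbarIncl A b : A) : Qbar) = b :=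
  rfl

/-- the centre of a valuation subring on the algebraic integers -/
def zbarCenter (A : ValuationSubring Qbar) : Ideal Zbar :=
  (IsLocalRing.maximalIdeal A).comap (zbarIncl A)

instance zbarCenter_isPrime (A : ValuationSubring Qbar) : (zbarCenter A).IsPrime :=
  Ideal.comap_isPrime _ _

theorem mem_zbarCenter (A : ValuationSubring Qbar) (b : Zbar) :
    b ∈ zbarCenter A ↔ (b : Qbar) ∈ A.nonunits := by
  rw [← coe_zbarIncl A b, ValuationSubring.coe_mem_nonunits_iff]
  rfl

theorem map_mem_of_smul_center_eq (A : ValuationSubring Qbar) (τ : GQ)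
    (hτ : τ • zbarCenter A = zbarCenter A) {x : Qbar} (hx : x ∈ A) : τ x ∈ A := by
  obtain ⟨b, s, hs, hxs⟩ := exists_fraction A x hx
  have h1 : τ x * τ s = τ b := by rw [← map_mul, hxs]
  have h2 : ((τ • s : Zbar) : Qbar) ∉ A.nonunits := by
    rw [← mem_zbarCenter, ← hτ, Ideal.smul_mem_pointwise_smul_iff, mem_zbarCenter]
    exact hs
  rw [zbar_coe_smul, ValuationSubring.mem_nonunits_iff_or, not_or, not_not] at h2
  have h3 : τ x = τ b * (τ s)⁻¹ := by
    rw [← h1, mul_assoc, mul_inv_cancel₀ h2.1, mul_one]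
  rw [h3]
  exact A.mul_mem _ _ (mem_of_isIntegral A (τ • b : Zbar).2) h2.2

theorem mem_decomposition_of_smul_center_eq (A : ValuationSubring Qbar) (σ : GQ)
    (hσ : σ • zbarCenter A = zbarCenter A) : σ ∈ A.decompositionSubgroup ℚ := by
  have hσ' : σ⁻¹ • zbarCenter A = zbarCenter A := by
    ext x
    rw [Ideal.mem_pointwise_smul_iff_inv_smul_mem, inv_inv]
    conv_lhs => rw [← hσ]
    rw [Ideal.smul_mem_pointwise_smul_iff]
  rw [MulAction.mem_stabilizer_iff]
  ext x
  rw [ValuationSubring.mem_pointwise_smul_iff_inv_smul_mem]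
  constructor
  · intro h
    have := map_mem_of_smul_center_eq A σ hσ h
    simpa using this
  · intro h
    exact map_mem_of_smul_center_eq A σ⁻¹ hσ' h

/-- **Existence of Frobenius elements**: every valuation subring of `Qbar` lying over a prime `ℓ`
admits a Frobenius element. -/
theorem exists_isFrobeniusAt (ℓ : ℕ) (hℓ : ℓ.Prime) (A : ValuationSubring Qbar)
    (hA : A.LiesOverPrime ℓ) : ∃ σ : GQ, A.IsFrobeniusAt σ ℓ := by
  have hQ : (ℓ : Zbar) ∈ zbarCenter A := by
    rw [mem_zbarCenter]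
    have h : (ℓ : Qbar) ∈ A.nonunits := hA
    simpa using h
  obtain ⟨σ, hσQ, hσ⟩ := exists_frob_zbar ℓ hℓ (zbarCenter A) hQ
  have hdec := mem_decomposition_of_smul_center_eq A σ hσQ
  refine ⟨σ, hdec, fun x => ?_⟩
  obtain ⟨a, rfl⟩ := IsLocalRing.residue_surjective x
  obtain ⟨b, s, hs, hxs⟩ := exists_fraction A a.1 a.2
  -- Frobenius congruence for algebraic integers
  have key : ∀ t : Zbar, (⟨σ, hdec⟩ : A.decompositionSubgroup ℚ) •
      IsLocalRing.residue A (zbarIncl A t) = IsLocalRing.residue A (zbarIncl A t) ^ ℓ := by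
    intro t
    rw [← IsLocalRing.ResidueField.residue_smul, ← map_pow, ← sub_eq_zero, ← map_sub,
      IsLocalRing.residue_eq_zero_iff, ← ValuationSubring.coe_mem_nonunits_iff]
    have := (mem_zbarCenter A _).mp (hσ t)
    exact this
  have h1 : a * zbarIncl A s = zbarIncl A b := Subtype.ext hxs
  have h2 : IsLocalRing.residue A a * IsLocalRing.residue A (zbarIncl A s) =
      IsLocalRing.residue A (zbarIncl A b) := by rw [← map_mul, h1]
  have h3 : IsLocalRing.residue A (zbarIncl A s) ≠ 0 := by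
    rw [Ne, IsLocalRing.residue_eq_zero_iff, ← ValuationSubring.coe_mem_nonunits_iff]
    exact hs
  have h4 := congrArg (fun y => (⟨σ, hdec⟩ : A.decompositionSubgroup ℚ) • y) h2
  simp only [smul_mul', key] at h4
  rw [← h2, mul_pow] at h4
  exact mul_right_cancel₀ (pow_ne_zero _ h3) h4

/-- Every maximal (indeed proper) ideal of the algebraic integers is the centre of some valuation
subring; in particular there is a valuation subring over each prime. -/
theorem exists_liesOverPrime (ℓ : ℕ) (hℓ : ℓ.Prime) :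
    ∃ A : ValuationSubring Qbar, A.LiesOverPrime ℓ := by
  have : Fact ℓ.Prime := ⟨hℓ⟩
  have hPmax : (Ideal.span {(ℓ : ℤ)}).IsMaximal := Int.ideal_span_isMaximal_of_prime ℓ
  obtain ⟨Q, hQmax, hQ⟩ :=
    Ideal.exists_maximal_ideal_liesOver_of_isIntegral (S := Zbar) (Ideal.span {(ℓ : ℤ)})
  have hmem : (ℓ : Zbar) ∈ Q := by
    have h1 : (ℓ : ℤ) ∈ Q.under ℤ := by
      rw [← hQ.over]
      exact Ideal.mem_span_singleton_self _
    simpa using h1
  obtain ⟨A, -, hA⟩ :=
    Ideal.image_subset_nonunits_valuationSubring (A := Zbar.toSubring) Q hQmax.ne_top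
  refine ⟨A, hA ⟨(ℓ : Zbar), hmem, ?_⟩⟩
  simp

/-- Packaged form: a place over `ℓ` together with a Frobenius element. -/
theorem exists_frob (ℓ : ℕ) (hℓ : ℓ.Prime) :
    ∃ A : ValuationSubring (AlgebraicClosure ℚ), A.LiesOverPrime ℓ ∧
      ∃ σ : AlgebraicClosure ℚ ≃ₐ[ℚ] AlgebraicClosure ℚ, A.IsFrobeniusAt σ ℓ := by
  obtain ⟨A, hA⟩ := exists_liesOverPrime ℓ hℓ
  exact ⟨A, hA, exists_isFrobeniusAt ℓ hℓ A hA⟩

end

end Fermat.Agent.S54
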